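import Mathlib
import Fermat.Agent.H08.Kummer

/-!
# The cube roots of the discriminant inside the 3-division field

For two independent points `T`, `P` of order three, `b₄ - 3 (x(T) x(P) + x(P+T) x(P-T))` is a
cube root of `Δ` (Serre).
-/

set_option autoImplicit false

namespace Fermat.Agent.H29P

open WeierstrassCurve WeierstrassCurve.Affine WeierstrassCurve.Affine.Point
open Fermat.Agent.H08

variable {F : Type*} [Field F] [DecidableEq F] {W : WeierstrassCurve.Affine F}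

/-- The cube root of the discriminant attached to two points of order three. -/
noncomputable def tS (T Q : W.Point) : F :=
  W.b₄ - 3 * (px T * px Q + px (Q + T) * px (Q - T))

lemma add_self_eq_neg {T : W.Point} (hT : 3 • T = 0) : T + T = -T := by
  rw [eq_neg_iff_add_eq_zero, ← hT]; abel

/-- the x-coordinate of a point of order three is a root of the 3-division polynomial -/
theorem psi_three {T : W.Point} (hT0 : T ≠ 0) (hT : 3 • T = 0) :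
    3 * px T ^ 4 + W.b₂ * px T ^ 3 + 3 * W.b₄ * px T ^ 2 + 3 * W.b₆ * px T + W.b₈ = 0 := by
  have h1 := add_self_eq_neg hT
  have h2 : T + T ≠ 0 := by rw [h1]; exact neg_ne_zero.mpr hT0
  have h := px_double hT0 h2
  rw [h1, px_neg] at h
  linear_combination h

/-- elementary symmetric functions of the four roots of a quartic -/
theorem vieta {K : Type*} [Field K] {c₄ c₃ c₂ c₁ c₀ x₁ x₂ x₃ x₄ : K} 
    (h₁ : c₄ * x₁ ^ 4 + c₃ * x₁ ^ 3 + c₂ * x₁ ^ 2 + c₁ * x₁ + c₀ = 0)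
    (h₂ : c₄ * x₂ ^ 4 + c₃ * x₂ ^ 3 + c₂ * x₂ ^ 2 + c₁ * x₂ + c₀ = 0)
    (h₃ : c₄ * x₃ ^ 4 + c₃ * x₃ ^ 3 + c₂ * x₃ ^ 2 + c₁ * x₃ + c₀ = 0)
    (h₄ : c₄ * x₄ ^ 4 + c₃ * x₄ ^ 3 + c₂ * x₄ ^ 2 + c₁ * x₄ + c₀ = 0)
    (h12 : x₁ ≠ x₂) (h13 : x₁ ≠ x₃) (h14 : x₁ ≠ x₄) (h23 : x₂ ≠ x₃) (h24 : x₂ ≠ x₄)
    (h34 : x₃ ≠ x₄) :
    c₃ = -c₄ * (x₁ + x₂ + x₃ + x₄) ∧
    c₂ = c₄ * (x₁ * x₂ + x₁ * x₃ + x₁ * x₄ + x₂ * x₃ + x₂ * x₄ + x₃ * x₄) ∧
    c₁ = -c₄ * (x₁ * x₂ * x₃ + x₁ * x₂ * x₄ + x₁ * x₃ * x₄ + x₂ * x₃ * x₄) ∧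
    c₀ = c₄ * (x₁ * x₂ * x₃ * x₄) := by
  have d12 := sub_ne_zero.mpr h12
  have d13 := sub_ne_zero.mpr h13
  have d14 := sub_ne_zero.mpr h14
  have d23 := sub_ne_zero.mpr h23
  have d24 := sub_ne_zero.mpr h24
  have d34 := sub_ne_zero.mpr h34
  -- divided differences
  have e12 : c₄ * (x₁ ^ 3 + x₁ ^ 2 * x₂ + x₁ * x₂ ^ 2 + x₂ ^ 3) + c₃ * (x₁ ^ 2 + x₁ * x₂ + x₂ ^ 2)
      + c₂ * (x₁ + x₂) + c₁ = 0 := by
    apply mul_left_cancel₀ d12
    rw [mul_zero]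
    linear_combination h₁ - h₂
  have e13 : c₄ * (x₁ ^ 3 + x₁ ^ 2 * x₃ + x₁ * x₃ ^ 2 + x₃ ^ 3) + c₃ * (x₁ ^ 2 + x₁ * x₃ + x₃ ^ 2)
      + c₂ * (x₁ + x₃) + c₁ = 0 := by
    apply mul_left_cancel₀ d13
    rw [mul_zero]
    linear_combination h₁ - h₃
  have e14 : c₄ * (x₁ ^ 3 + x₁ ^ 2 * x₄ + x₁ * x₄ ^ 2 + x₄ ^ 3) + c₃ * (x₁ ^ 2 + x₁ * x₄ + x₄ ^ 2)
      + c₂ * (x₁ + x₄) + c₁ = 0 := by
    apply mul_left_cancel₀ d14
    rw [mul_zero]
    linear_combination h₁ - h₄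
  have e123 : c₄ * (x₁ ^ 2 + x₂ ^ 2 + x₃ ^ 2 + x₁ * x₂ + x₁ * x₃ + x₂ * x₃)
      + c₃ * (x₁ + x₂ + x₃) + c₂ = 0 := by
    apply mul_left_cancel₀ d23
    rw [mul_zero]
    linear_combination e12 - e13
  have e124 : c₄ * (x₁ ^ 2 + x₂ ^ 2 + x₄ ^ 2 + x₁ * x₂ + x₁ * x₄ + x₂ * x₄)
      + c₃ * (x₁ + x₂ + x₄) + c₂ = 0 := by
    apply mul_left_cancel₀ d24
    rw [mul_zero]
    linear_combination e12 - e14
  have e1234 : c₄ * (x₁ + x₂ + x₃ + x₄) + c₃ = 0 := by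
    apply mul_left_cancel₀ d34
    rw [mul_zero]
    linear_combination e123 - e124
  have r3 : c₃ = -c₄ * (x₁ + x₂ + x₃ + x₄) := by linear_combination e1234
  have r2 : c₂ = c₄ * (x₁ * x₂ + x₁ * x₃ + x₁ * x₄ + x₂ * x₃ + x₂ * x₄ + x₃ * x₄) := by
    linear_combination e123 - (x₁ + x₂ + x₃) * r3
  have r1 : c₁ = -c₄ * (x₁ * x₂ * x₃ + x₁ * x₂ * x₄ + x₁ * x₃ * x₄ + x₂ * x₃ * x₄) := by
    linear_combination e12 - (x₁ ^ 2 + x₁ * x₂ + x₂ ^ 2) * r3 - (x₁ + x₂) * r2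
  refine ⟨r3, r2, r1, ?_⟩
  linear_combination h₁ - x₁ ^ 3 * r3 - x₁ ^ 2 * r2 - x₁ * r1

/-- the resolvent cubic of the 3-division polynomial -/
theorem resolvent {K : Type*} [Field K] {b₂ b₄ b₆ b₈ x₁ x₂ x₃ x₄ : K} (h3 : (3 : K) ≠ 0)
    (hb : 4 * b₈ = b₂ * b₆ - b₄ ^ 2)
    (r3 : b₂ = -3 * (x₁ + x₂ + x₃ + x₄))
    (r2 : 3 * b₄ = 3 * (x₁ * x₂ + x₁ * x₃ + x₁ * x₄ + x₂ * x₃ + x₂ * x₄ + x₃ * x₄))
    (r1 : 3 * b₆ = -3 * (x₁ * x₂ * x₃ + x₁ * x₂ * x₄ + x₁ * x₃ * x₄ + x₂ * x₃ * x₄))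
    (r0 : b₈ = 3 * (x₁ * x₂ * x₃ * x₄)) :
    (b₄ - 3 * (x₁ * x₂ + x₃ * x₄)) ^ 3 = -b₂ ^ 2 * b₈ - 8 * b₄ ^ 3 - 27 * b₆ ^ 2 + 9 * b₂ * b₄ * b₆ := by
  have r2' : b₄ = x₁ * x₂ + x₁ * x₃ + x₁ * x₄ + x₂ * x₃ + x₂ * x₄ + x₃ * x₄ :=
    mul_left_cancel₀ h3 r2
  have r1' : b₆ = -(x₁ * x₂ * x₃ + x₁ * x₂ * x₄ + x₁ * x₃ * x₄ + x₂ * x₃ * x₄) :=
    mul_left_cancel₀ h3 (by linear_combination r1)
  subst r3 r2' r1' r0
  -- both sides agree modulo the relation `hb`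
  set s2 := x₁ * x₂ + x₁ * x₃ + x₁ * x₄ + x₂ * x₃ + x₂ * x₄ + x₃ * x₄ with hs2
  set y := x₁ * x₂ + x₃ * x₄ with hy
  have hres : y ^ 3 - s2 * y ^ 2
      + ((x₁ + x₂ + x₃ + x₄) * (x₁ * x₂ * x₃ + x₁ * x₂ * x₄ + x₁ * x₃ * x₄ + x₂ * x₃ * x₄)
        - 4 * (x₁ * x₂ * x₃ * x₄)) * y
      - ((x₁ * x₂ * x₃ + x₁ * x₂ * x₄ + x₁ * x₃ * x₄ + x₂ * x₃ * x₄) ^ 2
        + (x₁ + x₂ + x₃ + x₄) ^ 2 * (x₁ * x₂ * x₃ * x₄)
        - 4 * s2 * (x₁ * x₂ * x₃ * x₄)) = 0 := by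
    rw [hy, hs2]; ring
  linear_combination (-27) * hres + (9 * s2 - 9 * y) * hb

section points

variable {T P : W.Point}

/-- `P` is a point of order three outside the line of `T`. -/
structure Indep (T P : W.Point) : Prop where
  T0 : T ≠ 0
  T3 : 3 • T = 0
  P0 : P ≠ 0
  P3 : 3 • P = 0
  ne : P ≠ T
  ne' : P ≠ -T

namespace Indep

omit [DecidableEq F] in
lemma neg_ne_self {Q : W.Point} [DecidableEq F] (h0 : Q ≠ 0) (h3 : 3 • Q = 0) : Q + Q ≠ 0 := by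
  rw [add_self_eq_neg h3]; exact neg_ne_zero.mpr h0

lemma add_ne (h : Indep T P) : P + T ≠ 0 := fun e => h.ne' (eq_neg_of_add_eq_zero_left e)

lemma sub_ne (h : Indep T P) : P - T ≠ 0 := fun e => h.ne (sub_eq_zero.mp e)

lemma add3 (h : Indep T P) : 3 • (P + T) = 0 := by rw [smul_add, h.T3, h.P3, add_zero]

lemma sub3 (h : Indep T P) : 3 • (P - T) = 0 := by rw [smul_sub, h.T3, h.P3, sub_zero]

lemma add_add (h : Indep T P) : P + T + T = P - T := by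
  rw [add_assoc, add_self_eq_neg h.T3, sub_eq_add_neg]

lemma sub_sub (h : Indep T P) : P - T - T = P + T := by
  rw [_root_.sub_sub, add_self_eq_neg h.T3, sub_neg_eq_add]

protected lemma add (h : Indep T P) : Indep T (P + T) where
  T0 := h.T0
  T3 := h.T3
  P0 := h.add_ne
  P3 := h.add3
  ne e := h.P0 (by simpa using e)
  ne' e := by
    apply h.ne
    have h1 : P + T + T = 0 := by rw [e]; abel
    rw [h.add_add] at h1
    exact sub_eq_zero.mp h1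

lemma x12 (h : Indep T P) : px T ≠ px P := by
  rw [Ne, px_eq_iff h.T0 h.P0]
  rintro (e | e)
  · exact h.ne e.symm
  · exact h.ne' (by rw [e, neg_neg])

lemma x13 (h : Indep T P) : px T ≠ px (P + T) := h.add.x12

lemma x14 (h : Indep T P) : px T ≠ px (P - T) := by
  rw [← h.add_add]; exact h.add.x13

lemma x23 (h : Indep T P) : px P ≠ px (P + T) := by
  rw [Ne, px_eq_iff h.P0 h.add_ne]
  rintro (e | e)
  · exact h.T0 (by simpa using e)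
  · apply h.ne
    have h1 : (P + P) + T = 0 := by
      have := eq_neg_iff_add_eq_zero.mp e
      rw [← this]; abel
    rw [add_self_eq_neg h.P3] at h1
    exact (neg_add_eq_zero.mp h1)

lemma x34 (h : Indep T P) : px (P + T) ≠ px (P - T) := by
  rw [← h.add_add]; exact h.add.x23

lemma x24 (h : Indep T P) : px P ≠ px (P - T) := by
  have h1 := h.add.add.x23
  rw [h.add_add, sub_add_cancel] at h1
  exact h1.symm

end Indep

/-- **Serre's formula.** -/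
theorem tS_pow (h3 : (3 : F) ≠ 0) (h : Indep T P) : tS T P ^ 3 = W.Δ := by
  obtain ⟨r3, r2, r1, r0⟩ := vieta (psi_three h.T0 h.T3) (psi_three h.P0 h.P3)
    (psi_three h.add_ne h.add3) (psi_three h.sub_ne h.sub3) h.x12 h.x13 h.x14 h.x23 h.x24 h.x34
  rw [tS, resolvent h3 W.b_relation r3 r2 r1 r0, WeierstrassCurve.Δ]

lemma tS_add (h : Indep T P) :
    tS T (P + T) = W.b₄ - 3 * (px T * px (P + T) + px (P - T) * px P) := by
  rw [tS, h.add_add, add_sub_cancel_right]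

theorem tS_ne_add (h3 : (3 : F) ≠ 0) (h : Indep T P) : tS T P ≠ tS T (P + T) := by
  intro e
  rw [tS_add h, tS] at e
  have h1 : (3 : F) * ((px T - px (P - T)) * (px P - px (P + T))) = 0 := by
    linear_combination -e
  rcases mul_eq_zero.mp h1 with h2 | h2
  · exact h3 h2
  rcases mul_eq_zero.mp h2 with h2 | h2
  · exact h.x14 (sub_eq_zero.mp h2)
  · exact h.x23 (sub_eq_zero.mp h2)

lemma tS_neg (Q : W.Point) : tS (-T) Q = tS T Q := by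
  rw [tS, tS, px_neg, sub_neg_eq_add, ← sub_eq_add_neg]; ring

/-- the three cube roots -/
theorem exists_pow {ζ : F} (hζ : IsPrimitiveRoot ζ 3) (h3 : (3 : F) ≠ 0) (hΔ : W.Δ ≠ 0)
    (h : Indep T P) :
    ∃ i : ℕ, ∀ n : ℕ, tS T (P + n • T) ^ i = ζ ^ n * tS T P ^ i := by
  have c0 := tS_pow h3 h
  have c1 := tS_pow h3 h.add
  have c2 := tS_pow h3 h.add.add
  have n01 := tS_ne_add h3 h
  have n12 := tS_ne_add h3 h.add
  have n20 := tS_ne_add h3 h.add.add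
  have e3 : P + T + T + T = P := by
    rw [h.add_add, sub_add_cancel]
  rw [e3] at n20
  have ht0 : tS T P ≠ 0 := by
    intro h0; rw [h0, zero_pow three_ne_zero] at c0; exact hΔ c0.symm
  have hz3 := hζ.pow_eq_one
  have key : ∀ s : F, s ^ 3 = W.Δ → s ≠ tS T P → s = ζ * tS T P ∨ s = ζ ^ 2 * tS T P := by
    intro s hs hne
    have h1 : (s / tS T P) ^ 3 = 1 := by rw [div_pow, hs, c0, div_self hΔ]
    obtain ⟨m, hm, hm'⟩ := hζ.eq_pow_of_pow_eq_one h1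
    rw [eq_div_iff ht0] at hm'
    interval_cases m
    · rw [pow_zero, one_mul] at hm'; exact absurd hm'.symm hne
    · left; rw [← hm', pow_one]
    · right; exact hm'.symm
  have hmod : ∀ n : ℕ, P + n • T = P + (n % 3) • T := by
    intro n
    conv_lhs => rw [← Nat.div_add_mod n 3, add_smul, mul_comm 3, mul_smul, h.T3, smul_zero,
      zero_add]
  have hzmod : ∀ n : ℕ, ζ ^ n = ζ ^ (n % 3) := fun n => pow_eq_pow_mod n hz3
  have e1 : P + 1 • T = P + T := by rw [one_smul]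
  have e2 : P + 2 • T = P + T + T := by rw [two_smul]; abel
  rcases key _ c1 n01.symm with h1 | h1
  · have h2 : tS T (P + T + T) = ζ ^ 2 * tS T P := by
      rcases key _ c2 n20 with h2 | h2
      · exact absurd (h1.trans h2.symm) n12
      · exact h2
    refine ⟨1, fun n => ?_⟩
    rw [hmod n, hzmod n, pow_one, pow_one]
    have : n % 3 < 3 := Nat.mod_lt _ (by norm_num)
    interval_cases (n % 3)
    · rw [zero_smul, add_zero, pow_zero, one_mul]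
    · rw [e1, h1, pow_one]
    · rw [e2, h2]
  · have h2 : tS T (P + T + T) = ζ * tS T P := by
      rcases key _ c2 n20 with h2 | h2
      · exact h2
      · exact absurd (h1.trans h2.symm) n12
    refine ⟨2, fun n => ?_⟩
    rw [hmod n, hzmod n]
    have : n % 3 < 3 := Nat.mod_lt _ (by norm_num)
    interval_cases (n % 3)
    · rw [zero_smul, add_zero, pow_zero, one_mul]
    · rw [e1, h1, pow_one]
      linear_combination ζ * tS T P ^ 2 * hz3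
    · rw [e2, h2]
      ring

end points

end Fermat.Agent.H29P
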