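import Mathlib
import Fermat.Agent.H29P.Serre3
import Fermat.Agent.H11N.N3Curve

/-!
# `E[3]` is peu ramifiée at `3` as soon as `3 ∣ v₃(Δ)`

The Kummer generator of the extension is a cube root of `Δ` (Serre's formula), so no reduction
theory is needed.
-/

set_option autoImplicit false
set_option linter.style.haveILetI false
set_option linter.unusedSectionVars false
set_option maxSynthPendingDepth 3

noncomputable section

namespace Fermat.Agent.H29P

open ModularCurve AlgebraicCurve Fermat.Agent.Ell Fermat.Agent.H12.LL Matrix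
open WeierstrassCurve WeierstrassCurve.Affine WeierstrassCurve.Affine.Point
open Fermat.Agent.EGal (VV rho)
open Fermat.Agent.H11N Fermat.Agent.H08

local notation "Qb" => AlgebraicClosure ℚ

/-- determinant of a matrix `M` with `(M - 1) V ⊆ ⟨v₁⟩` -/
theorem det_of_line {R : Type*} [Field R] {M : Matrix (Fin 2) (Fin 2) R} {v₁ : Fin 2 → R}
    (hv₁ : v₁ ≠ 0) (hM : ∀ v, ∃ c : R, M *ᵥ v - v = c • v₁) {a : R} (ha : M *ᵥ v₁ = a • v₁) :
    M.det = a := by
  obtain ⟨c₀, h0⟩ := hM (Pi.single 0 1)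
  obtain ⟨c₁, h1⟩ := hM (Pi.single 1 1)
  have e00 := congrFun h0 0
  have e01 := congrFun h0 1
  have e10 := congrFun h1 0
  have e11 := congrFun h1 1
  simp at e00 e01 e10 e11
  have a0 := congrFun ha 0
  have a1 := congrFun ha 1
  simp only [Matrix.mulVec, dotProduct, Fin.sum_univ_two, Pi.smul_apply, smul_eq_mul] at a0 a1
  have f00 : M 0 0 = 1 + c₀ * v₁ 0 := by linear_combination e00
  have f10 : M 1 0 = c₀ * v₁ 1 := by linear_combination e01
  have f01 : M 0 1 = c₁ * v₁ 0 := by linear_combination e10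
  have f11 : M 1 1 = 1 + c₁ * v₁ 1 := by linear_combination e11
  rw [f00, f01] at a0
  rw [f10, f11] at a1
  obtain ⟨i, hi⟩ : ∃ i, v₁ i ≠ 0 := by
    by_contra hcon
    push Not at hcon
    exact hv₁ (funext hcon)
  rw [Matrix.det_fin_two, f00, f01, f10, f11]
  fin_cases i
  · apply mul_right_cancel₀ hi
    simp only [Fin.mk_zero, Fin.isValue]
    linear_combination a0
  · apply mul_right_cancel₀ hi
    simp only [Fin.mk_one, Fin.isValue]
    linear_combination a1

lemma zmod_three (d : ZMod 3) : d = 0 ∨ d = 1 ∨ d = -1 := by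
  revert d; decide

section Gal


/-- the action of the Galois group on `tS` -/
theorem map_tS {E : WeierstrassCurve ℚ} [DecidableEq Qb] (σ : Qb ≃ₐ[ℚ] Qb)
    (T Q : ((E⁄Qb) : WeierstrassCurve.Affine Qb).Point) :
    σ (tS T Q) = tS (σ • T) (σ • Q) := by
  have hb : σ ((E⁄Qb) : WeierstrassCurve.Affine Qb).b₄ =
      ((E⁄Qb) : WeierstrassCurve.Affine Qb).b₄ := by
    change σ (E.map (algebraMap ℚ Qb)).b₄ = (E.map (algebraMap ℚ Qb)).b₄
    rw [WeierstrassCurve.map_b₄, σ.commutes]
  have h3 : σ (3 : Qb) = 3 := map_ofNat σ 3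
  rw [tS, tS, map_sub, map_mul, map_add, map_mul, map_mul, hb, h3, ← smul_add, ← _root_.smul_sub,
    px_smul, px_smul, px_smul, px_smul]

end Gal

section Curve

variable {W : WeierstrassCurve ℤ} {p : ℕ} [hp : Fact p.Prime]

/-- **`E[3]` is peu ramifiée** when `3 ∣ v₃(Δ)` (any reduction type). -/
theorem peu_three (h3 : p = 3) (hΔ : W.Δ ≠ 0) (hirr : W.ModRepIsIrreducible p) (hp2 : p ≠ 2)
    {D : ℕ} (hpD : p ∣ D) (hΔD : W.Δ.natAbs ∣ D) (hdiv : p ∣ padicValInt p W.Δ)
    {A : ValuationSubring Qb} (hA : A.LiesOverPrime p) {ζ : Qb} (hζ : IsPrimitiveRoot ζ p) :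
    (mrepCurve hΔ hirr hp2 hpD hΔD).Peu A ζ := by
  haveI := isElliptic_WQ hΔ
  intro v₁ v₂ hv₁ hI
  rw [mrepCurve_ρ] at hI ⊢
  set R := MR (tB (p := p) hΔ) (PadicInt.toZMod (p := p)) with hR
  have hζ0 : ζ ≠ 0 := hζ.ne_zero hp.out.ne_zero
  have hζA : A.valuation ζ = 1 := by
    have h1 : (A.valuation ζ) ^ p = 1 := by rw [← map_pow, hζ.pow_eq_one, map_one]
    exact (pow_eq_one_iff_of_nonneg zero_le hp.out.ne_zero).1 h1
  have hζmod : ∀ m n : ℕ, (m : ZMod p) = n → ζ ^ m = ζ ^ n := by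
    intro m n h
    rw [ZMod.natCast_eq_natCast_iff] at h
    rw [pow_eq_pow_mod m hζ.pow_eq_one, h, ← pow_eq_pow_mod n hζ.pow_eq_one]
  obtain ⟨i₀, hi₀⟩ : ∃ i, v₁ i ≠ 0 := by
    by_contra hcon
    push Not at hcon
    exact hv₁ (funext hcon)
  have hcancel : ∀ c c' : ZMod p, c • v₁ = c' • v₁ → c = c' := by
    intro c c' h
    have := congrFun h i₀
    simp only [Pi.smul_apply, smul_eq_mul] at this
    exact mul_right_cancel₀ hi₀ this
  by_cases hc : ∃ c : ZMod p, v₂ = c • v₁
  · obtain ⟨c, rfl⟩ := hc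
    refine ⟨ζ ^ c.val, ?_, ?_, pow_ne_zero _ hζ0, ?_, ?_⟩
    · exact (A.valuation_le_one_iff _).1 (by rw [map_pow, hζA, one_pow])
    · rw [← A.valuation_le_one_iff, map_inv₀, map_pow, hζA, one_pow, inv_one]
    · have h1 : (ζ ^ c.val) ^ p = 1 := by rw [← pow_mul, mul_comm, pow_mul, hζ.pow_eq_one, one_pow]
      rw [h1]; exact one_mem _
    · intro σ hσ b hb
      haveI : NeZero p := ⟨hp.out.ne_zero⟩
      have h1 : (σ ζ) ^ p = 1 := by rw [← map_pow, hζ.pow_eq_one, map_one]
      obtain ⟨m, -, hm⟩ := hζ.eq_pow_of_pow_eq_one h1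
      -- the eigenvalue on the line
      obtain ⟨c₁, hc₁⟩ := hI σ hσ v₁
      have ha : R σ *ᵥ v₁ = (1 + c₁) • v₁ := by
        rw [sub_eq_iff_eq_add] at hc₁
        rw [hc₁, add_smul, one_smul, add_comm]
      have hdet := det_of_line hv₁ (hI σ hσ) ha
      rw [hR, det_MR_cyc hΔ hirr hζ hm.symm] at hdet
      rw [mulVec_smul, ha, smul_smul, ← add_smul] at hb
      have h2 := hcancel _ _ hb
      rw [map_pow, ← hm, ← pow_mul, ← pow_add]
      apply hζmod
      push_cast
      rw [ZMod.natCast_zmod_val, hdet]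
      linear_combination h2
  · -- the identification with the torsion module
    let e : (Fin 2 → ZMod p) ≃ₗ[ZMod p] VV (WQ W) p := (redBasis (tB (p := p) hΔ)).equivFun.symm
    have heσ : ∀ (σ : Qb ≃ₐ[ℚ] Qb) v, σ • e v = e (R σ *ᵥ v) := by
      intro σ v
      apply e.symm.injective
      rw [LinearEquiv.symm_apply_apply]
      have h3 := LinearMap.toMatrix_mulVec_repr (redBasis (tB (p := p) hΔ))
        (redBasis (tB (p := p) hΔ)) (rho (WQ W) p σ) (e v)
      have h4 : (⇑((redBasis (tB (p := p) hΔ)).repr (e v)) : Fin 2 → ZMod p) = v :=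
        e.symm_apply_apply v
      rw [h4] at h3
      rw [hR, MR_toZMod]
      exact h3.symm
    subst h3
    have h30 : (3 : Qb) ≠ 0 := by norm_num
    have hΔ0 : ((WQ W)⁄Qb : WeierstrassCurve.Affine Qb).Δ = (W.Δ : Qb) := by
      have := congrArg WeierstrassCurve.Δ (map_WQ W)
      rw [WeierstrassCurve.map_Δ] at this
      exact this.symm
    have hΔ1 : ((WQ W)⁄Qb : WeierstrassCurve.Affine Qb).Δ ≠ 0 := by
      rw [hΔ0]; exact_mod_cast hΔ
    let T : ((WQ W)⁄Qb : WeierstrassCurve.Affine Qb).Point := (e v₁ : VV (WQ W) 3)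
    let P : ((WQ W)⁄Qb : WeierstrassCurve.Affine Qb).Point := (e v₂ : VV (WQ W) 3)
    have htors : ∀ x : VV (WQ W) 3, 3 • (x : ((WQ W)⁄Qb : WeierstrassCurve.Affine Qb).Point) = 0 := by
      intro x
      have := (Submodule.mem_torsionBy_iff _ _).mp x.2
      rw [natCast_zsmul] at this
      exact this
    have hinj : ∀ v w, ((e v : VV (WQ W) 3) : ((WQ W)⁄Qb : WeierstrassCurve.Affine Qb).Point) =
        (e w : VV (WQ W) 3) → v = w := fun v w h => e.injective (Subtype.ext h)
    have hInd : Indep T P :=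
      { T0 := fun h => hv₁ (hinj _ _ (h.trans (by rw [_root_.map_zero]; rfl)))
        T3 := htors _
        P0 := fun h => hc ⟨0, by
          rw [zero_smul]; exact hinj _ _ (h.trans (by rw [_root_.map_zero]; rfl))⟩
        P3 := htors _
        ne := fun h => hc ⟨1, by rw [one_smul]; exact hinj _ _ h⟩
        ne' := fun h => hc ⟨-1, by
          rw [neg_one_smul]; exact hinj _ _ (h.trans (by rw [map_neg]; rfl))⟩ }
    obtain ⟨i, hi⟩ := exists_pow hζ h30 hΔ1 hInd
    have hpow : (tS T P ^ i) ^ 3 = (W.Δ : Qb) ^ i := by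
      rw [← pow_mul, mul_comm, pow_mul, tS_pow h30 hInd, hΔ0]
    have hne : tS T P ^ i ≠ 0 := by
      intro h0
      rw [h0, zero_pow three_ne_zero] at hpow
      exact pow_ne_zero i (by exact_mod_cast hΔ : (W.Δ : Qb) ≠ 0) hpow.symm
    obtain ⟨k, hk⟩ := hdiv
    obtain ⟨w, hw1, hw2, hw3, hw4, hw5⟩ := normalize_unit (p := 3) (A := A) three_ne_zero hne
      (fun σ _ => by rw [hpow, map_pow, map_intCast]) (n := (k * i : ℕ)) (by
        rw [hpow, map_pow, N4.val_intCast_eq_padicValInt hp.out hA hΔ, hk, ← pow_mul,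
          ← zpow_natCast]
        congr 1
        push_cast
        ring)
    refine ⟨w, hw1, hw2, hw3, hw4, fun σ hσ b hb => hw5 σ _ ?_⟩
    -- action on `T`
    have hσT : σ • T = T ∨ σ • T = -T := by
      obtain ⟨c₁, hc₁⟩ := hI σ hσ v₁
      have ha : R σ *ᵥ v₁ = (1 + c₁) • v₁ := by
        rw [sub_eq_iff_eq_add] at hc₁
        rw [hc₁, add_smul, one_smul, add_comm]
      have h1 : σ • (e v₁ : VV (WQ W) 3) = (1 + c₁) • e v₁ := by rw [heσ, ha, map_smul]
      have h2 : σ • (e v₁ : VV (WQ W) 3) ≠ 0 := by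
        intro h0
        rw [heσ] at h0
        have h4 : R σ *ᵥ v₁ = 0 := e.injective (h0.trans (_root_.map_zero e).symm)
        apply hv₁
        have h5 : R σ⁻¹ *ᵥ (R σ *ᵥ v₁) = v₁ := by
          rw [mulVec_mulVec, ← map_mul, inv_mul_cancel, map_one, one_mulVec]
        rw [← h5, h4, mulVec_zero]
      generalize hgen : (1 + c₁ : ZMod 3) = d at h1
      have h6 : d = 0 ∨ d = 1 ∨ d = -1 := zmod_three d
      rcases h6 with rfl | rfl | rfl
      · rw [zero_smul] at h1; exact absurd h1 h2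
      · left
        rw [one_smul] at h1
        exact congrArg Subtype.val h1
      · right
        rw [neg_one_smul] at h1
        exact congrArg Subtype.val h1
    have hσP : σ • P = P + b • T := by
      have h1 : σ • (e v₂ : VV (WQ W) 3) = e v₂ + b • e v₁ := by
        rw [heσ, hb, map_add, map_smul, Nat.cast_smul_eq_nsmul]
      exact congrArg Subtype.val h1
    rw [map_pow, map_tS, ← hi b, hσP]
    rcases hσT with h | h
    · rw [h]
    · rw [h, tS_neg]

end Curve

end Fermat.Agent.H29P
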